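/-
Program DS (S48), package K, row K1b (`dsk_descend`): the absolutely irreducible case.
`M : G →* M₂(K)`, `K` algebraically closed of characteristic `ℓ`, no common eigenvector, all
traces in the prime field.  The prime ring `R` generated by `M(G)` is finite and noncommutative,
so (little Wedderburn) it contains a matrix `x` of rank one; a column `u` of `x` and `M(g₀) u`
form a basis of `K²` in which every `M(g)` has prime-field entries.
-/
import Mathlib
import Fermat.Agent.DS.K.Descend.Burnside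

set_option autoImplicit false
set_option linter.unusedSectionVars false
set_option linter.unusedVariables false
set_option linter.style.haveILetI false

open Polynomial Matrix

namespace Fermat.Agent.DS

section Irred

variable {K : Type*} [Field K] {G : Type*} [Group G]

/-- the matrix with columns `u`, `u'`. -/
def dskdCols (u u' : Fin 2 → K) : Matrix (Fin 2) (Fin 2) K := Matrix.of fun i j => if j = 0 then u i else u' i

theorem dskdCols_det (u u' : Fin 2 → K) : (dskdCols u u').det = dskdDet2 u u' := by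
  rw [Matrix.det_fin_two]
  simp [dskdCols, dskdDet2]
  ring

theorem dskdCols_mulVec (u u' : Fin 2 → K) (c : Fin 2 → K) :
    dskdCols u u' *ᵥ c = c 0 • u + c 1 • u' := by
  ext i
  simp [dskdCols, Matrix.mulVec, dotProduct, Fin.sum_univ_two]
  ring

/-- the 2×2 matrix with given columns `(a, b)` and `(a', b')`. -/
def dskdMat {R : Type*} (a b a' b' : R) : Matrix (Fin 2) (Fin 2) R :=
  Matrix.of fun i j => if j = 0 then (if i = 0 then a else b) else (if i = 0 then a' else b')

theorem dskd_mul_cols {A : Matrix (Fin 2) (Fin 2) K} {u u' : Fin 2 → K} {a b a' b' : K}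
    (h0 : A *ᵥ u = a • u + b • u') (h1 : A *ᵥ u' = a' • u + b' • u') :
    A * dskdCols u u' = dskdCols u u' * dskdMat a b a' b' := by
  ext i j
  have e0 := congrFun h0 i
  have e1 := congrFun h1 i
  simp only [Matrix.mulVec, dotProduct, Fin.sum_univ_two, Fin.isValue, Pi.add_apply, Pi.smul_apply,
    smul_eq_mul] at e0 e1
  fin_cases j
  · simp only [Fin.zero_eta, Fin.isValue, Matrix.mul_apply, Fin.sum_univ_two, dskdCols, dskdMat,
      Matrix.of_apply, if_true, one_ne_zero, if_false]
    rw [e0]; ring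
  · simp only [Fin.mk_one, Fin.isValue, Matrix.mul_apply, Fin.sum_univ_two, dskdCols, dskdMat,
      Matrix.of_apply, if_true, one_ne_zero, if_false]
    rw [e1]; ring

theorem dskdMat_map {R S : Type*} (f : R → S) (a b a' b' : R) :
    (dskdMat a b a' b').map f = dskdMat (f a) (f b) (f a') (f b') := by
  ext i j
  fin_cases i <;> fin_cases j <;> simp [dskdMat]

theorem dskdMat_trace {R : Type*} [AddCommMonoid R] (a b a' b' : R) :
    (dskdMat a b a' b').trace = a + b' := by
  simp [Matrix.trace_fin_two, dskdMat]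

theorem dskdMat_det {R : Type*} [CommRing R] (a b a' b' : R) :
    (dskdMat a b a' b').det = a * b' - a' * b := by
  simp [Matrix.det_fin_two, dskdMat]

theorem dskdMat_mulVec {R : Type*} [CommRing R] (a b a' b' : R) (v : Fin 2 → R) :
    dskdMat a b a' b' *ᵥ v = ![a * v 0 + a' * v 1, b * v 0 + b' * v 1] := by
  ext i
  fin_cases i <;> simp [dskdMat, Matrix.mulVec, dotProduct, Fin.sum_univ_two]

variable [IsAlgClosed K] (ℓ : ℕ) [Fact ℓ.Prime] [CharP K ℓ] [Finite G]

/-- **Case B** of the descent: no common eigenvector. -/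
theorem dskd_descend_irred (M : G →* Matrix (Fin 2) (Fin 2) K)
    (hPF : ∀ g, dskdPF K (M g).trace) (hne : ¬ dskdCommonEig M) :
    ∃ ρ₀ : G →* GL (Fin 2) (ZMod ℓ), dskdSemisimple ρ₀.range ∧ ∀ g : G,
      (M g).trace = ZMod.castHom (dvd_refl ℓ) K ((ρ₀ g : Matrix (Fin 2) (Fin 2) (ZMod ℓ)).trace) ∧
      (M g).det = ZMod.castHom (dvd_refl ℓ) K ((ρ₀ g : Matrix (Fin 2) (Fin 2) (ZMod ℓ)).det) := by
  classical
  set ι : ZMod ℓ →+* K := ZMod.castHom (dvd_refl ℓ) K with hι
  have hιinj : Function.Injective ι := ι.injective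
  -- the prime ring generated by `M(G)`
  set R : Subring (Matrix (Fin 2) (Fin 2) K) := Subring.closure (Set.range M) with hRdef
  have hR_iff : ∀ x, x ∈ R ↔ x ∈ AddSubgroup.closure (Set.range M) := by
    intro x
    rw [hRdef, Subring.mem_closure_iff]
    have : (Submonoid.closure (Set.range M) : Set (Matrix (Fin 2) (Fin 2) K)) = Set.range M := by
      rw [← MonoidHom.coe_mrange, Submonoid.closure_eq]
    rw [this]
  have hMR : ∀ g, M g ∈ R := fun g => Subring.subset_closure ⟨g, rfl⟩
  have htr : ∀ x ∈ R, dskdPF K x.trace := by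
    intro x hx
    rw [hR_iff] at hx
    induction hx using AddSubgroup.closure_induction with
    | mem y hy => obtain ⟨g, rfl⟩ := hy; exact hPF g
    | zero => rw [Matrix.trace_zero]; exact dskdPF_zero
    | add y z _ _ hy hz => rw [Matrix.trace_add]; exact dskdPF_add hy hz
    | neg y _ hy => rw [Matrix.trace_neg]; exact dskdPF_neg hy
  -- `R` is finite
  haveI hPFfin : Finite {x : K // dskdPF K x} := (dskdPF_finite (K := K) ℓ).to_subtype
  haveI hRfin : Finite R := by
    let f : R → (G → {x : K // dskdPF K x}) :=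
      fun r g => ⟨((r : Matrix (Fin 2) (Fin 2) K) * M g).trace, htr _ (R.mul_mem r.2 (hMR g))⟩
    refine Finite.of_injective f ?_
    intro r r' hrr'
    have h0 : (r : Matrix (Fin 2) (Fin 2) K) - r' = 0 := by
      apply dskd_eq_zero_of_trace_mul_family M hne
      intro g
      have := congrArg Subtype.val (congrFun hrr' g)
      simp only [f] at this
      rw [sub_mul, Matrix.trace_sub, this, sub_self]
    exact Subtype.ext (sub_eq_zero.mp h0)
  -- zero divisors
  have hzd : ∃ x ∈ R, ∃ y ∈ R, x ≠ 0 ∧ y ≠ 0 ∧ x * y = 0 := by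
    by_contra hcon
    push Not at hcon
    haveI : NoZeroDivisors R := ⟨fun {a b} hab => by
      by_contra h
      push Not at h
      refine hcon a a.2 b b.2 (fun h0 => h.1 (Subtype.ext h0)) (fun h0 => h.2 (Subtype.ext h0)) ?_
      have := congrArg Subtype.val hab
      simpa using this⟩
    haveI : IsDomain R := NoZeroDivisors.to_isDomain R
    have hfield := Finite.isDomain_to_isField R
    obtain ⟨g, h, hgh⟩ := dskd_exists_not_commute M hne
    apply hgh
    have := hfield.mul_comm ⟨M g, hMR g⟩ ⟨M h, hMR h⟩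
    exact congrArg Subtype.val this
  obtain ⟨x, hxR, y, hyR, hx0, hy0, hxy⟩ := hzd
  have hdetx : x.det = 0 := by
    by_contra hd
    apply hy0
    have hu : IsUnit x.det := isUnit_iff_ne_zero.mpr hd
    calc y = x⁻¹ * (x * y) := by
          rw [← Matrix.mul_assoc, Matrix.nonsing_inv_mul _ hu, Matrix.one_mul]
      _ = 0 := by rw [hxy, Matrix.mul_zero]
  obtain ⟨u, w, hu0, hw0, hxuw⟩ := dskd_rank_one hx0 hdetx
  -- a second basis vector
  have hg₀ : ∃ g₀, dskdDet2 u (M g₀ *ᵥ u) ≠ 0 := by
    by_contra hcon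
    push Not at hcon
    exact hne ⟨u, hu0, fun g => dskd_exists_smul_of_det2_eq_zero hu0 (hcon g)⟩
  obtain ⟨g₀, hD⟩ := hg₀
  set u' : Fin 2 → K := M g₀ *ᵥ u with hu'
  -- the key claim
  have key : ∀ h : G, ∃ a b : K, dskdPF K a ∧ dskdPF K b ∧ M h *ᵥ u = a • u + b • u' := by
    intro h
    refine ⟨dskdDet2 (M h *ᵥ u) u' / dskdDet2 u u', dskdDet2 u (M h *ᵥ u) / dskdDet2 u u', ?_⟩
    set a := dskdDet2 (M h *ᵥ u) u' / dskdDet2 u u' with ha
    set b := dskdDet2 u (M h *ᵥ u) / dskdDet2 u u' with hb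
    have hab : M h *ᵥ u = a • u + b • u' := dskd_eq_combination hD (M h *ᵥ u)
    have hmat : M h * x = a • x + b • (M g₀ * x) := by
      rw [hxuw, Matrix.mul_vecMulVec, Matrix.mul_vecMulVec, hab, Matrix.add_vecMulVec,
        Matrix.smul_vecMulVec, Matrix.smul_vecMulVec]
    have hfrob : ∀ g : G, (a ^ ℓ - a) * (x * M g).trace + (b ^ ℓ - b) * (M g₀ * x * M g).trace
        = 0 := by
      intro g
      have ht : (M h * x * M g).trace = a * (x * M g).trace + b * (M g₀ * x * M g).trace := by
        rw [hmat, add_mul, Matrix.trace_add, Matrix.smul_mul, Matrix.smul_mul, Matrix.trace_smul,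
          Matrix.trace_smul, smul_eq_mul, smul_eq_mul]
      have h1 := dskdPF_pow_eq ℓ (htr _ (R.mul_mem (R.mul_mem (hMR h) hxR) (hMR g)))
      have h2 := dskdPF_pow_eq ℓ (htr _ (R.mul_mem hxR (hMR g)))
      have h3 := dskdPF_pow_eq ℓ (htr _ (R.mul_mem (R.mul_mem (hMR g₀) hxR) (hMR g)))
      rw [ht, add_pow_char, mul_pow, mul_pow, h2, h3] at h1
      linear_combination h1
    have hm0 : (a ^ ℓ - a) • x + (b ^ ℓ - b) • (M g₀ * x) = 0 := by
      apply dskd_eq_zero_of_trace_mul_family M hne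
      intro g
      rw [add_mul, Matrix.trace_add, Matrix.smul_mul, Matrix.smul_mul, Matrix.trace_smul,
        Matrix.trace_smul, smul_eq_mul, smul_eq_mul]
      exact hfrob g
    have hvec : (a ^ ℓ - a) • u + (b ^ ℓ - b) • u' = 0 := by
      apply dskd_vecMulVec_eq_zero hw0
      rw [Matrix.add_vecMulVec, Matrix.smul_vecMulVec, Matrix.smul_vecMulVec, hu',
        ← Matrix.mul_vecMulVec, ← hxuw]
      exact hm0
    obtain ⟨h1, h2⟩ := dskd_coeff_zero_of_det2_ne_zero hD hvec
    exact ⟨dskdPF_of_pow_eq ℓ (sub_eq_zero.mp h1), dskdPF_of_pow_eq ℓ (sub_eq_zero.mp h2), hab⟩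
  choose a b haPF hbPF hab using key
  -- lifts to `ZMod ℓ`
  have hlift : ∀ z : K, dskdPF K z → ∃ z₀ : ZMod ℓ, ι z₀ = z := fun z hz =>
    dskdPF_exists_zmod ℓ hz
  choose α hα using fun h => hlift (a h) (haPF h)
  choose β hβ using fun h => hlift (b h) (hbPF h)
  set P : Matrix (Fin 2) (Fin 2) K := dskdCols u u' with hP
  have hPdet : P.det ≠ 0 := by rw [hP, dskdCols_det]; exact hD
  have hPunit : IsUnit P.det := isUnit_iff_ne_zero.mpr hPdet
  set N₁ : G → Matrix (Fin 2) (Fin 2) K := fun g => dskdMat (a g) (b g) (a (g * g₀)) (b (g * g₀))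
    with hN₁
  set N₀ : G → Matrix (Fin 2) (Fin 2) (ZMod ℓ) :=
    fun g => dskdMat (α g) (β g) (α (g * g₀)) (β (g * g₀)) with hN₀
  have hN₀₁ : ∀ g, (N₀ g).map ι = N₁ g := by
    intro g
    simp only [hN₀, hN₁, dskdMat_map, hα, hβ]
  have hMP : ∀ g, M g * P = P * N₁ g := by
    intro g
    apply dskd_mul_cols (hab g)
    rw [hu', Matrix.mulVec_mulVec, ← map_mul]
    exact hab (g * g₀)
  have hcancel : ∀ A B : Matrix (Fin 2) (Fin 2) K, P * A = P * B → A = B := by
    intro A B hAB
    calc A = P⁻¹ * (P * A) := by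
          rw [← Matrix.mul_assoc, Matrix.nonsing_inv_mul _ hPunit, Matrix.one_mul]
      _ = P⁻¹ * (P * B) := by rw [hAB]
      _ = B := by rw [← Matrix.mul_assoc, Matrix.nonsing_inv_mul _ hPunit, Matrix.one_mul]
  have hN₁mul : ∀ g h, N₁ (g * h) = N₁ g * N₁ h := by
    intro g h
    apply hcancel
    rw [← hMP, map_mul, Matrix.mul_assoc, hMP h, ← Matrix.mul_assoc, hMP g, Matrix.mul_assoc]
  have hN₁one : N₁ 1 = 1 := by
    apply hcancel
    rw [← hMP, map_one, Matrix.one_mul, Matrix.mul_one]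
  have hmapinj : Function.Injective
      (fun A : Matrix (Fin 2) (Fin 2) (ZMod ℓ) => A.map ι) := Matrix.map_injective hιinj
  have hN₀mul : ∀ g h, N₀ (g * h) = N₀ g * N₀ h := by
    intro g h
    apply hmapinj
    simp only
    rw [Matrix.map_mul, hN₀₁, hN₀₁, hN₀₁, hN₁mul]
  have hN₀one : N₀ 1 = 1 := by
    apply hmapinj
    simp only
    rw [hN₀₁, hN₁one, Matrix.map_one _ (map_zero ι) (map_one ι)]
  let N₀hom : G →* Matrix (Fin 2) (Fin 2) (ZMod ℓ) :=
    { toFun := N₀, map_one' := hN₀one, map_mul' := hN₀mul }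
  refine ⟨N₀hom.toHomUnits, ?_, ?_⟩
  · -- semisimplicity
    apply dskd_semisimple_of_not_commonEig
    rintro ⟨v₀, hv₀, hv⟩
    apply hne
    set v₁ : Fin 2 → K := fun i => ι (v₀ i) with hv₁
    have hv₁0 : v₁ ≠ 0 := by
      intro h
      apply hv₀
      ext i
      have := congrFun h i
      simp only [hv₁, Pi.zero_apply] at this
      exact hιinj (by rw [this, Pi.zero_apply, map_zero])
    refine ⟨P *ᵥ v₁, ?_, fun g => ?_⟩
    · intro h
      exact hPdet (Matrix.exists_mulVec_eq_zero_iff.mp ⟨v₁, hv₁0, h⟩)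
    · obtain ⟨c, hc⟩ := hv g
      refine ⟨ι c, ?_⟩
      have hc' : N₁ g *ᵥ v₁ = ι c • v₁ := by
        have hc0 : N₀ g *ᵥ v₀ = c • v₀ := hc
        rw [← hN₀₁]
        ext i
        have := congrArg ι (congrFun hc0 i)
        simp only [Matrix.mulVec, dotProduct, Fin.sum_univ_two, Pi.smul_apply, smul_eq_mul,
          map_add, map_mul] at this
        simp only [Matrix.mulVec, dotProduct, Fin.sum_univ_two, Matrix.map_apply, hv₁,
          Pi.smul_apply, smul_eq_mul]
        exact this
      rw [Matrix.mulVec_mulVec, hMP, ← Matrix.mulVec_mulVec, hc', Matrix.mulVec_smul]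
  · intro g
    have hcoe : ((N₀hom.toHomUnits g : GL (Fin 2) (ZMod ℓ)) : Matrix (Fin 2) (Fin 2) (ZMod ℓ))
        = N₀ g := rfl
    rw [hcoe]
    have hMg : M g = P * N₁ g * P⁻¹ := by
      rw [← hMP, Matrix.mul_assoc, Matrix.mul_nonsing_inv _ hPunit, Matrix.mul_one]
    constructor
    · rw [hMg, Matrix.trace_mul_comm, ← Matrix.mul_assoc, Matrix.nonsing_inv_mul _ hPunit,
        Matrix.one_mul]
      simp only [hN₁, hN₀, dskdMat_trace, map_add, hα, hβ]
    · have h1 : (M g).det * P.det = P.det * (N₁ g).det := by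
        rw [← Matrix.det_mul, hMP, Matrix.det_mul]
      have h2 : (M g).det = (N₁ g).det := by
        apply mul_right_cancel₀ hPdet
        rw [h1, mul_comm]
      rw [h2]
      simp only [hN₁, hN₀, dskdMat_det, map_sub, map_mul, hα, hβ]

end Irred

end Fermat.Agent.DS
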