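/-
Program DS (S48), package K, row K1b (`dsk_descend`): the reducible case.
`M : G →* M₂(K)` with a common eigenvector, traces and determinants in the prime field.
Then `charpoly (M g) = (X - χ₁ g)(X - χ₂ g)` with multiplicative `χ₁, χ₂`; either both are
prime-field valued (diagonal representation) or `χ₂ = χ₁ ^ ℓ` and the regular representation of
`𝔽_ℓ[θ]`, `θ = χ₁ g₁ ∉ 𝔽_ℓ`, does the job.
-/
import Mathlib
import Fermat.Agent.DS.K.Descend.Irred

set_option autoImplicit false
set_option linter.unusedSectionVars false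
set_option linter.unusedVariables false
set_option linter.style.haveILetI false

open Polynomial Matrix

namespace Fermat.Agent.DS

section Red

/-- product of two diagonal matrices -/
theorem dskdMat_diag_mul {R : Type*} [CommRing R] (a b a' b' : R) :
    dskdMat a 0 0 b * dskdMat a' 0 0 b' = dskdMat (a * a') 0 0 (b * b') := by
  ext i j
  fin_cases i <;> fin_cases j <;> simp [dskdMat, Matrix.mul_apply, Fin.sum_univ_two]

theorem dskdMat_diag_one {R : Type*} [CommRing R] : dskdMat (1 : R) 0 0 1 = 1 := by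
  ext i j
  fin_cases i <;> fin_cases j <;> simp [dskdMat]

/-- the regular representation of `a + b θ`, `θ² = t θ - d`, in the basis `1, θ`. -/
def dskdReg {R : Type*} [CommRing R] (t d a b : R) : Matrix (Fin 2) (Fin 2) R :=
  dskdMat a b (-b * d) (a + b * t)

theorem dskdReg_mul {R : Type*} [CommRing R] (t d a b a' b' : R) :
    dskdReg t d a b * dskdReg t d a' b' =
      dskdReg t d (a * a' - b * b' * d) (a * b' + a' * b + b * b' * t) := by
  ext i j
  fin_cases i <;> fin_cases j <;>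
    simp [dskdReg, dskdMat, Matrix.mul_apply, Fin.sum_univ_two] <;> ring

theorem dskdReg_one {R : Type*} [CommRing R] (t d : R) : dskdReg t d 1 0 = 1 := by
  ext i j
  fin_cases i <;> fin_cases j <;> simp [dskdReg, dskdMat]

theorem dskdReg_trace {R : Type*} [CommRing R] (t d a b : R) :
    (dskdReg t d a b).trace = 2 * a + b * t := by
  rw [dskdReg, dskdMat_trace]; ring

theorem dskdReg_det {R : Type*} [CommRing R] (t d a b : R) :
    (dskdReg t d a b).det = a ^ 2 + a * b * t + b ^ 2 * d := by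
  rw [dskdReg, dskdMat_det]; ring

/-- semisimplicity of a diagonal representation -/
theorem dskd_semisimple_diag {F : Type} [Field F] {G : Type*} [Group G]
    (ρ₀ : G →* GL (Fin 2) F) (c₁ c₂ : G → F)
    (h : ∀ g, ((ρ₀ g : GL (Fin 2) F) : Matrix (Fin 2) (Fin 2) F) = dskdMat (c₁ g) 0 0 (c₂ g)) :
    dskdSemisimple ρ₀.range := by
  classical
  have hmv : ∀ g (w : Fin 2 → F),
      ((ρ₀ g : GL (Fin 2) F) : Matrix (Fin 2) (Fin 2) F) *ᵥ w = ![c₁ g * w 0, c₂ g * w 1] := by
    intro g w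
    rw [h, dskdMat_mulVec]
    simp
  intro W hW
  have hW' : ∀ g, ∀ w ∈ W, (![c₁ g * w 0, c₂ g * w 1] : Fin 2 → F) ∈ W := by
    intro g w hw
    rw [← hmv]
    exact hW (ρ₀ g) ⟨g, rfl⟩ w hw
  by_cases hsc : ∀ g, c₁ g = c₂ g
  · -- scalar action: any complement is stable
    obtain ⟨W', hW'c⟩ := Submodule.exists_isCompl W
    refine ⟨W', ?_, hW'c⟩
    rintro _ ⟨g, rfl⟩ w hw
    rw [hmv]
    have : (![c₁ g * w 0, c₂ g * w 1] : Fin 2 → F) = c₁ g • w := by
      ext i
      fin_cases i <;> simp [hsc g]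
    rw [this]
    exact W'.smul_mem _ hw
  · push Not at hsc
    obtain ⟨g₁, hg₁⟩ := hsc
    -- coordinate projections of elements of `W` stay in `W`
    have hproj0 : ∀ w ∈ W, (![w 0, 0] : Fin 2 → F) ∈ W := by
      intro w hw
      have h1 := hW' g₁ w hw
      have h2 : (![c₁ g₁ * w 0, c₂ g₁ * w 1] : Fin 2 → F) - c₂ g₁ • w ∈ W :=
        W.sub_mem h1 (W.smul_mem _ hw)
      have h3 : (c₁ g₁ - c₂ g₁)⁻¹ • ((![c₁ g₁ * w 0, c₂ g₁ * w 1] : Fin 2 → F) - c₂ g₁ • w) ∈ W :=
        W.smul_mem _ h2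
      have h4 : (c₁ g₁ - c₂ g₁)⁻¹ • ((![c₁ g₁ * w 0, c₂ g₁ * w 1] : Fin 2 → F) - c₂ g₁ • w)
          = ![w 0, 0] := by
        have hne : c₁ g₁ - c₂ g₁ ≠ 0 := sub_ne_zero.mpr hg₁
        ext i
        fin_cases i
        · show (c₁ g₁ - c₂ g₁)⁻¹ * (c₁ g₁ * w 0 - c₂ g₁ * w 0) = w 0
          field_simp
        · show (c₁ g₁ - c₂ g₁)⁻¹ * (c₂ g₁ * w 1 - c₂ g₁ * w 1) = 0
          rw [sub_self, mul_zero]
      rw [h4] at h3
      exact h3
    have hproj1 : ∀ w ∈ W, (![0, w 1] : Fin 2 → F) ∈ W := by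
      intro w hw
      have h1 := W.sub_mem hw (hproj0 w hw)
      have : w - ![w 0, 0] = ![0, w 1] := by
        ext i
        fin_cases i <;> simp
      rw [this] at h1
      exact h1
    let W' : Submodule F (Fin 2 → F) :=
      { carrier := {y | (∀ w ∈ W, w 0 * y 0 = 0) ∧ (∀ w ∈ W, w 1 * y 1 = 0)}
        add_mem' := fun {x y} hx hy => by
          refine ⟨fun w hw => ?_, fun w hw => ?_⟩
          · simp only [Pi.add_apply, mul_add, hx.1 w hw, hy.1 w hw, add_zero]
          · simp only [Pi.add_apply, mul_add, hx.2 w hw, hy.2 w hw, add_zero]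
        zero_mem' := by
          refine ⟨fun w _ => ?_, fun w _ => ?_⟩ <;> simp
        smul_mem' := fun c x hx => by
          refine ⟨fun w hw => ?_, fun w hw => ?_⟩
          · simp only [Pi.smul_apply, smul_eq_mul]
            rw [mul_left_comm, hx.1 w hw, mul_zero]
          · simp only [Pi.smul_apply, smul_eq_mul]
            rw [mul_left_comm, hx.2 w hw, mul_zero] }
    refine ⟨W', ?_, ?_⟩
    · rintro _ ⟨g, rfl⟩ y hy
      rw [hmv]
      refine ⟨fun w hw => ?_, fun w hw => ?_⟩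
      · show w 0 * (c₁ g * y 0) = 0
        rw [mul_left_comm, hy.1 w hw, mul_zero]
      · show w 1 * (c₂ g * y 1) = 0
        rw [mul_left_comm, hy.2 w hw, mul_zero]
    · rw [isCompl_iff]
      constructor
      · rw [Submodule.disjoint_def]
        intro y hyW hyW'
        have h0 := hyW'.1 y hyW
        have h1 := hyW'.2 y hyW
        ext i
        fin_cases i
        · exact mul_self_eq_zero.mp h0
        · exact mul_self_eq_zero.mp h1
      · rw [codisjoint_iff, Submodule.eq_top_iff']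
        intro x
        have hx : x = ![x 0, 0] + ![0, x 1] := by
          ext i
          fin_cases i <;> simp
        rw [hx]
        apply Submodule.add_mem
        · by_cases hex : ∃ w ∈ W, w 0 ≠ 0
          · obtain ⟨w, hw, hw0⟩ := hex
            apply Submodule.mem_sup_left
            have : (![x 0, 0] : Fin 2 → F) = (x 0 / w 0) • ![w 0, 0] := by
              ext i
              fin_cases i
              · show x 0 = x 0 / w 0 * w 0
                field_simp
              · show (0 : F) = x 0 / w 0 * 0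
                rw [mul_zero]
            rw [this]
            exact W.smul_mem _ (hproj0 w hw)
          · push Not at hex
            apply Submodule.mem_sup_right
            refine ⟨fun w hw => ?_, fun w hw => ?_⟩
            · rw [hex w hw, zero_mul]
            · simp
        · by_cases hex : ∃ w ∈ W, w 1 ≠ 0
          · obtain ⟨w, hw, hw1⟩ := hex
            apply Submodule.mem_sup_left
            have : (![0, x 1] : Fin 2 → F) = (x 1 / w 1) • ![0, w 1] := by
              ext i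
              fin_cases i
              · show (0 : F) = x 1 / w 1 * 0
                rw [mul_zero]
              · show x 1 = x 1 / w 1 * w 1
                field_simp
            rw [this]
            exact W.smul_mem _ (hproj1 w hw)
          · push Not at hex
            apply Submodule.mem_sup_right
            refine ⟨fun w hw => ?_, fun w hw => ?_⟩
            · simp
            · rw [hex w hw, zero_mul]

variable {K : Type*} [Field K] {G : Type*} [Group G] (ℓ : ℕ) [Fact ℓ.Prime] [CharP K ℓ]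

/-- **Case A** of the descent: a common eigenvector. -/
theorem dskd_descend_red (M : G →* Matrix (Fin 2) (Fin 2) K)
    (hPFt : ∀ g, dskdPF K (M g).trace) (hPFd : ∀ g, dskdPF K (M g).det)
    (hce : dskdCommonEig M) :
    ∃ ρ₀ : G →* GL (Fin 2) (ZMod ℓ), dskdSemisimple ρ₀.range ∧ ∀ g : G,
      (M g).trace = ZMod.castHom (dvd_refl ℓ) K ((ρ₀ g : Matrix (Fin 2) (Fin 2) (ZMod ℓ)).trace) ∧
      (M g).det = ZMod.castHom (dvd_refl ℓ) K ((ρ₀ g : Matrix (Fin 2) (Fin 2) (ZMod ℓ)).det) := by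
  classical
  set ι : ZMod ℓ →+* K := ZMod.castHom (dvd_refl ℓ) K with hι
  have hιinj : Function.Injective ι := ι.injective
  have hlift : ∀ z : K, dskdPF K z → ∃ z₀ : ZMod ℓ, ι z₀ = z := fun z hz =>
    dskdPF_exists_zmod ℓ hz
  obtain ⟨v, hv0, hv⟩ := hce
  choose χ₁ hχ₁ using hv
  -- multiplicativity of `χ₁`
  have hχ₁mul : ∀ g h, χ₁ (g * h) = χ₁ g * χ₁ h := by
    intro g h
    have h1 : M (g * h) *ᵥ v = (χ₁ g * χ₁ h) • v := by
      rw [map_mul, ← Matrix.mulVec_mulVec, hχ₁ h, Matrix.mulVec_smul, hχ₁ g, smul_smul, mul_comm]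
    rw [hχ₁ (g * h)] at h1
    have h2 : (χ₁ (g * h) - χ₁ g * χ₁ h) • v = 0 := by rw [sub_smul, h1, sub_self]
    rcases smul_eq_zero.mp h2 with h3 | h3
    · exact sub_eq_zero.mp h3
    · exact absurd h3 hv0
  have hχ₁one : χ₁ 1 = 1 := by
    have h1 : M 1 *ᵥ v = (1 : K) • v := by rw [map_one, Matrix.one_mulVec, one_smul]
    rw [hχ₁ 1] at h1
    have h2 : (χ₁ 1 - 1) • v = 0 := by rw [sub_smul, h1, sub_self]
    rcases smul_eq_zero.mp h2 with h3 | h3
    · exact sub_eq_zero.mp h3
    · exact absurd h3 hv0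
  have hχ₁ne : ∀ g, χ₁ g ≠ 0 := by
    intro g h0
    have := hχ₁mul g g⁻¹
    rw [mul_inv_cancel, hχ₁one, h0, zero_mul] at this
    exact one_ne_zero this
  -- the eigenvalue equation
  have heig : ∀ g, χ₁ g ^ 2 - (M g).trace * χ₁ g + (M g).det = 0 := by
    intro g
    have hdet : (M g - χ₁ g • (1 : Matrix (Fin 2) (Fin 2) K)).det = 0 := by
      apply Matrix.exists_mulVec_eq_zero_iff.mp
      refine ⟨v, hv0, ?_⟩
      rw [Matrix.sub_mulVec, Matrix.smul_mulVec, Matrix.one_mulVec, sub_eq_zero]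
      exact hχ₁ g
    rw [Matrix.det_fin_two] at hdet
    simp only [Fin.isValue, Matrix.sub_apply, Matrix.smul_apply, Matrix.one_apply_eq, smul_eq_mul,
      mul_one, ne_eq, zero_ne_one, not_false_eq_true, Matrix.one_apply_ne, mul_zero, sub_zero,
      one_ne_zero] at hdet
    rw [Matrix.trace_fin_two, Matrix.det_fin_two]
    linear_combination hdet
  set χ₂ : G → K := fun g => (M g).trace - χ₁ g with hχ₂
  have hχ₁₂ : ∀ g, χ₁ g * χ₂ g = (M g).det := by
    intro g
    simp only [hχ₂]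
    linear_combination -(heig g)
  have hχ₂mul : ∀ g h, χ₂ (g * h) = χ₂ g * χ₂ h := by
    intro g h
    have h1 := hχ₁₂ (g * h)
    rw [map_mul, Matrix.det_mul, ← hχ₁₂ g, ← hχ₁₂ h, hχ₁mul] at h1
    have h2 : χ₁ g * χ₁ h * (χ₂ (g * h) - χ₂ g * χ₂ h) = 0 := by linear_combination h1
    rcases mul_eq_zero.mp h2 with h3 | h3
    · exact absurd h3 (mul_ne_zero (hχ₁ne g) (hχ₁ne h))
    · exact sub_eq_zero.mp h3
  -- Frobenius permutes the two eigenvalues
  have hfrob : ∀ g, χ₁ g ^ ℓ = χ₁ g ∨ χ₁ g ^ ℓ = χ₂ g := by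
    intro g
    have ht := dskdPF_pow_eq ℓ (hPFt g)
    have hd := dskdPF_pow_eq ℓ (hPFd g)
    have h1 : (χ₁ g ^ 2 - (M g).trace * χ₁ g + (M g).det) ^ ℓ = 0 := by
      rw [heig g, zero_pow (Fact.out : ℓ.Prime).ne_zero]
    rw [add_pow_char, sub_pow_char, mul_pow, ht, hd, ← pow_mul, mul_comm 2 ℓ, pow_mul] at h1
    have h2 : (χ₁ g ^ ℓ - χ₁ g) * (χ₁ g ^ ℓ - χ₂ g) = 0 := by
      simp only [hχ₂]
      linear_combination h1 - heig g
    rcases mul_eq_zero.mp h2 with h3 | h3
    · exact Or.inl (sub_eq_zero.mp h3)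
    · exact Or.inr (sub_eq_zero.mp h3)
  by_cases hA1 : ∀ g, χ₁ g ^ ℓ = χ₁ g
  · -- diagonal case
    have hPF1 : ∀ g, dskdPF K (χ₁ g) := fun g => dskdPF_of_pow_eq ℓ (hA1 g)
    have hPF2 : ∀ g, dskdPF K (χ₂ g) := fun g => dskdPF_sub (hPFt g) (hPF1 g)
    choose c₁ hc₁ using fun g => hlift (χ₁ g) (hPF1 g)
    choose c₂ hc₂ using fun g => hlift (χ₂ g) (hPF2 g)
    have hc₁mul : ∀ g h, c₁ (g * h) = c₁ g * c₁ h := by
      intro g h
      apply hιinj
      rw [map_mul, hc₁, hc₁, hc₁, hχ₁mul]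
    have hc₂mul : ∀ g h, c₂ (g * h) = c₂ g * c₂ h := by
      intro g h
      apply hιinj
      rw [map_mul, hc₂, hc₂, hc₂, hχ₂mul]
    have hc₁one : c₁ 1 = 1 := by
      apply hιinj
      rw [hc₁, hχ₁one, map_one]
    have hχ₂one : χ₂ 1 = 1 := by
      have := hχ₁₂ 1
      rw [hχ₁one, one_mul, map_one, Matrix.det_one] at this
      exact this
    have hc₂one : c₂ 1 = 1 := by
      apply hιinj
      rw [hc₂, hχ₂one, map_one]
    let N₀hom : G →* Matrix (Fin 2) (Fin 2) (ZMod ℓ) :=
      { toFun := fun g => dskdMat (c₁ g) 0 0 (c₂ g)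
        map_one' := by rw [hc₁one, hc₂one, dskdMat_diag_one]
        map_mul' := fun g h => by rw [hc₁mul, hc₂mul, dskdMat_diag_mul] }
    have hcoe : ∀ g, ((N₀hom.toHomUnits g : GL (Fin 2) (ZMod ℓ)) :
        Matrix (Fin 2) (Fin 2) (ZMod ℓ)) = dskdMat (c₁ g) 0 0 (c₂ g) := fun g => rfl
    refine ⟨N₀hom.toHomUnits, dskd_semisimple_diag _ c₁ c₂ hcoe, fun g => ?_⟩
    rw [hcoe, dskdMat_trace, dskdMat_det]
    constructor
    · rw [map_add, hc₁, hc₂]
      simp only [hχ₂]
      ring
    · rw [map_sub, map_mul, map_mul, hc₁, hc₂, map_zero, zero_mul, sub_zero, hχ₁₂]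
  · -- the quadratic case
    push Not at hA1
    obtain ⟨g₁, hg₁⟩ := hA1
    set θ : K := χ₁ g₁ with hθ
    have hθ2 : θ ^ ℓ = χ₂ g₁ := (hfrob g₁).resolve_left hg₁
    have hθ0 : θ ≠ 0 := hχ₁ne g₁
    have hθℓ0 : θ ^ ℓ ≠ 0 := pow_ne_zero _ hθ0
    -- all `g` are of the second kind
    have hall : ∀ g, χ₁ g ^ ℓ = χ₂ g := by
      intro g
      rcases hfrob g with h1 | h1
      · rcases hfrob (g * g₁) with h2 | h2
        · exfalso
          rw [hχ₁mul, mul_pow, h1] at h2
          exact hg₁ (mul_left_cancel₀ (hχ₁ne g) h2)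
        · rw [hχ₁mul, mul_pow, h1, hχ₂mul, ← hθ2] at h2
          have := mul_right_cancel₀ hθℓ0 h2
          rw [h1]
          exact this
      · exact h1
    set t₁ : K := (M g₁).trace with ht₁
    set d₁ : K := (M g₁).det with hd₁
    have hsum : θ + θ ^ ℓ = t₁ := by
      rw [hθ2]
      simp only [hχ₂, hθ, ht₁]
      ring
    have hprod : θ * θ ^ ℓ = d₁ := by
      rw [hθ2]
      exact hχ₁₂ g₁
    have hθsq : θ ^ 2 = t₁ * θ - d₁ := by
      have := heig g₁
      linear_combination this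
    have hθℓℓ : (θ ^ ℓ) ^ ℓ = θ := by
      have ht := dskdPF_pow_eq ℓ (hPFt g₁)
      have h1 : θ ^ ℓ = t₁ - θ := by linear_combination hsum
      rw [h1, sub_pow_char, ht, h1]
      ring
    set δ : K := θ - θ ^ ℓ with hδ
    have hδ0 : δ ≠ 0 := by
      intro h
      exact hg₁ (sub_eq_zero.mp h).symm
    have hδℓ : δ ^ ℓ = -δ := by
      rw [hδ, sub_pow_char, hθℓℓ]
      ring
    -- coordinates of `χ₁ g` in the basis `1, θ`
    have hcoord : ∀ g, ∃ A B : K, dskdPF K A ∧ dskdPF K B ∧ χ₁ g = A + B * θ := by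
      intro g
      have ht := dskdPF_pow_eq ℓ (hPFt g)
      have hzℓ : χ₁ g ^ ℓ = (M g).trace - χ₁ g := hall g
      have hzℓℓ : (χ₁ g ^ ℓ) ^ ℓ = χ₁ g := by
        rw [hzℓ, sub_pow_char, ht, hzℓ]
        ring
      set w : K := χ₁ g - χ₁ g ^ ℓ with hw
      have hwℓ : w ^ ℓ = -w := by
        rw [hw, sub_pow_char, hzℓℓ]
        ring
      have hBℓ : (w / δ) ^ ℓ = w / δ := by
        rw [div_pow, hwℓ, hδℓ, neg_div_neg_eq]
      have hAℓ : (χ₁ g - w / δ * θ) ^ ℓ = χ₁ g - w / δ * θ := by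
        rw [sub_pow_char, mul_pow, hBℓ]
        have : w / δ * (θ - θ ^ ℓ) = w := by
          rw [← hδ]
          field_simp
        linear_combination this
      refine ⟨χ₁ g - w / δ * θ, w / δ, dskdPF_of_pow_eq ℓ hAℓ, dskdPF_of_pow_eq ℓ hBℓ, ?_⟩
      ring
    choose A B hAPF hBPF hAB using hcoord
    -- uniqueness of coordinates
    have huniq : ∀ a b a' b' : K, dskdPF K a → dskdPF K b → dskdPF K a' → dskdPF K b' →
        a + b * θ = a' + b' * θ → a = a' ∧ b = b' := by
      intro a b a' b' ha hb ha' hb' h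
      have hbb : b = b' := by
        by_contra hne
        have hne' : b - b' ≠ 0 := sub_ne_zero.mpr hne
        have hθeq : θ = (a' - a) / (b - b') := by
          rw [eq_div_iff hne']
          linear_combination h
        apply hg₁
        have h1 := dskdPF_pow_eq ℓ (dskdPF_sub ha' ha)
        have h2 := dskdPF_pow_eq ℓ (dskdPF_sub hb hb')
        calc θ ^ ℓ = ((a' - a) / (b - b')) ^ ℓ := by rw [← hθeq]
          _ = (a' - a) / (b - b') := by rw [div_pow, h1, h2]
          _ = θ := hθeq.symm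
      subst hbb
      exact ⟨by linear_combination h, rfl⟩
    choose α hα using fun g => hlift (A g) (hAPF g)
    choose β hβ using fun g => hlift (B g) (hBPF g)
    obtain ⟨t₀, ht₀⟩ := hlift t₁ (hPFt g₁)
    obtain ⟨d₀, hd₀⟩ := hlift d₁ (hPFd g₁)
    have hmulc : ∀ g h, α (g * h) = α g * α h - β g * β h * d₀ ∧
        β (g * h) = α g * β h + α h * β g + β g * β h * t₀ := by
      intro g h
      have h1 : χ₁ (g * h) = (A g * A h - B g * B h * d₁) +
          (A g * B h + A h * B g + B g * B h * t₁) * θ := by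
        rw [hχ₁mul, hAB g, hAB h]
        linear_combination (B g * B h) * hθsq
      rw [hAB (g * h)] at h1
      have hPFa : dskdPF K (A g * A h - B g * B h * d₁) :=
        dskdPF_sub (dskdPF_mul (hAPF g) (hAPF h))
          (dskdPF_mul (dskdPF_mul (hBPF g) (hBPF h)) (hPFd g₁))
      have hPFb : dskdPF K (A g * B h + A h * B g + B g * B h * t₁) :=
        dskdPF_add (dskdPF_add (dskdPF_mul (hAPF g) (hBPF h)) (dskdPF_mul (hAPF h) (hBPF g)))
          (dskdPF_mul (dskdPF_mul (hBPF g) (hBPF h)) (hPFt g₁))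
      obtain ⟨e1, e2⟩ := huniq _ _ _ _ (hAPF _) (hBPF _) hPFa hPFb h1
      constructor
      · apply hιinj
        rw [hα, e1]
        simp only [map_sub, map_mul, hα, hβ, hd₀]
      · apply hιinj
        rw [hβ, e2]
        simp only [map_add, map_mul, hα, hβ, ht₀]
    have honec : α 1 = 1 ∧ β 1 = 0 := by
      have h1 : χ₁ 1 = 1 + 0 * θ := by rw [hχ₁one]; ring
      rw [hAB 1] at h1
      obtain ⟨e1, e2⟩ := huniq _ _ _ _ (hAPF _) (hBPF _) dskdPF_one dskdPF_zero h1
      constructor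
      · apply hιinj
        rw [hα, e1, map_one]
      · apply hιinj
        rw [hβ, e2, map_zero]
    have hg₁c : α g₁ = 0 ∧ β g₁ = 1 := by
      have h1 : χ₁ g₁ = 0 + 1 * θ := by rw [← hθ]; ring
      rw [hAB g₁] at h1
      obtain ⟨e1, e2⟩ := huniq _ _ _ _ (hAPF _) (hBPF _) dskdPF_zero dskdPF_one h1
      constructor
      · apply hιinj
        rw [hα, e1, map_zero]
      · apply hιinj
        rw [hβ, e2, map_one]
    let N₀hom : G →* Matrix (Fin 2) (Fin 2) (ZMod ℓ) :=
      { toFun := fun g => dskdReg t₀ d₀ (α g) (β g)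
        map_one' := by rw [honec.1, honec.2, dskdReg_one]
        map_mul' := fun g h => by rw [dskdReg_mul, (hmulc g h).1, (hmulc g h).2] }
    have hcoe : ∀ g, ((N₀hom.toHomUnits g : GL (Fin 2) (ZMod ℓ)) :
        Matrix (Fin 2) (Fin 2) (ZMod ℓ)) = dskdReg t₀ d₀ (α g) (β g) := fun g => rfl
    refine ⟨N₀hom.toHomUnits, ?_, fun g => ?_⟩
    · -- no eigenvalue of `N₀ g₁` in the prime field
      apply dskd_semisimple_of_not_commonEig
      rintro ⟨v₀, hv₀, hv⟩
      obtain ⟨c, hc⟩ := hv g₁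
      simp only [hcoe, hg₁c.1, hg₁c.2] at hc
      have hdet : (dskdReg t₀ d₀ 0 1 - c • (1 : Matrix (Fin 2) (Fin 2) (ZMod ℓ))).det = 0 := by
        apply Matrix.exists_mulVec_eq_zero_iff.mp
        refine ⟨v₀, hv₀, ?_⟩
        rw [Matrix.sub_mulVec, Matrix.smul_mulVec, Matrix.one_mulVec, sub_eq_zero]
        exact hc
      have hc2 : c ^ 2 - t₀ * c + d₀ = 0 := by
        rw [Matrix.det_fin_two] at hdet
        simp only [dskdReg, dskdMat, Fin.isValue, Matrix.sub_apply, Matrix.of_apply,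
          Matrix.smul_apply, Matrix.one_apply_eq, smul_eq_mul, mul_one, ne_eq, zero_ne_one,
          not_false_eq_true, Matrix.one_apply_ne, mul_zero, sub_zero, one_ne_zero, if_true,
          if_false] at hdet
        linear_combination hdet
      have hc3 : (ι c - θ) * (ι c - θ ^ ℓ) = 0 := by
        have := congrArg ι hc2
        simp only [map_add, map_sub, map_mul, map_pow, map_zero, ht₀, hd₀] at this
        linear_combination this - (ι c) * hsum + hprod
      have hcℓ : ι c ^ ℓ = ι c := dskdPF_pow_eq ℓ (dskdPF_castHom ℓ c)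
      rcases mul_eq_zero.mp hc3 with h | h
      · have : ι c = θ := sub_eq_zero.mp h
        rw [this] at hcℓ
        exact hg₁ hcℓ
      · have : ι c = θ ^ ℓ := sub_eq_zero.mp h
        rw [this, hθℓℓ] at hcℓ
        exact hg₁ hcℓ.symm
    · rw [hcoe, dskdReg_trace, dskdReg_det]
      have hz : χ₁ g = A g + B g * θ := hAB g
      have hzℓ : χ₁ g ^ ℓ = A g + B g * θ ^ ℓ := by
        rw [hz, add_pow_char, mul_pow, dskdPF_pow_eq ℓ (hAPF g), dskdPF_pow_eq ℓ (hBPF g)]
      constructor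
      · have h1 : (M g).trace = χ₁ g + χ₁ g ^ ℓ := by
          rw [hall g]
          simp only [hχ₂]
          ring
        rw [h1, hzℓ, hz]
        simp only [map_add, map_mul, map_ofNat, hα, hβ, ht₀]
        linear_combination (B g) * hsum
      · have h1 : (M g).det = χ₁ g * χ₁ g ^ ℓ := by
          rw [hall g, hχ₁₂]
        rw [h1, hzℓ, hz]
        simp only [map_add, map_mul, map_pow, hα, hβ, ht₀, hd₀]
        linear_combination (A g * B g) * hsum + (B g ^ 2) * hprod

end Red

end Fermat.Agent.DS
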