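/-
Program DS (S48), package K, row K1b (`dsk_descend`): assembly.
A two-dimensional representation `ρ : G → End_k(V)` of a finite group over a field `k` of
characteristic `ℓ` all of whose characteristic polynomials have coefficients in the prime field
has the same characteristic polynomials as a SEMISIMPLE representation over `ZMod ℓ`.
-/
import Mathlib
import Fermat.Agent.DS.K.Descend.Red

set_option autoImplicit false
set_option linter.unusedSectionVars false
set_option linter.unusedVariables false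
set_option linter.style.haveILetI false

open Polynomial Matrix

namespace Fermat.Agent.DS

/-- a monic quadratic determines its coefficients -/
theorem dskd_quad_inj {R : Type*} [CommRing R] {a b a' b' : R}
    (h : (X ^ 2 - C a * X + C b : R[X]) = X ^ 2 - C a' * X + C b') : a = a' ∧ b = b' := by
  have h1 := congrArg (fun p : R[X] => p.coeff 1) h
  have h0 := congrArg (fun p : R[X] => p.coeff 0) h
  simp only [coeff_add, coeff_sub, coeff_X_pow, coeff_C_mul, coeff_X_one, coeff_X_zero, coeff_C,
    mul_one, mul_zero] at h1 h0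
  norm_num at h1 h0
  exact ⟨h1, h0⟩

/-- trace of a mapped matrix -/
theorem dskd_trace_map {R S : Type*} [CommRing R] [CommRing S] (f : R →+* S)
    (A : Matrix (Fin 2) (Fin 2) R) : (A.map f).trace = f A.trace :=
  (AddMonoidHom.map_trace f A).symm

/-- determinant of a mapped matrix -/
theorem dskd_det_map {R S : Type*} [CommRing R] [CommRing S] (f : R →+* S)
    (A : Matrix (Fin 2) (Fin 2) R) : (A.map f).det = f A.det :=
  (RingHom.map_det f A).symm

/-- **Row K1b** (`dsk_descend`, with the local copy `dskdSemisimple` of `DsSemisimple`). -/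
theorem dskd_descend (ℓ : ℕ) [Fact ℓ.Prime] (hℓ2 : ℓ ≠ 2) {G : Type} [Group G] [Finite G]
    {k : Type} [Field k] [CharP k ℓ] [Algebra (ZMod ℓ) k] {V : Type} [AddCommGroup V] [Module k V]
    [Module.Finite k V] (hV : Module.finrank k V = 2) (ρ : G →* Module.End k V)
    (h : ∀ g : G, ∃ t d : ZMod ℓ, LinearMap.charpoly (ρ g) =
      X ^ 2 - C (algebraMap (ZMod ℓ) k t) * X + C (algebraMap (ZMod ℓ) k d)) :
    ∃ ρ₀ : G →* GL (Fin 2) (ZMod ℓ), dskdSemisimple ρ₀.range ∧ ∀ g : G,
      LinearMap.charpoly (ρ g) =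
        ((ρ₀ g : Matrix (Fin 2) (Fin 2) (ZMod ℓ)).charpoly).map (algebraMap (ZMod ℓ) k) := by
  classical
  let b : Module.Basis (Fin 2) k V := Module.finBasisOfFinrankEq k V hV
  let K := AlgebraicClosure k
  haveI : CharP K ℓ := charP_of_injective_algebraMap (algebraMap k K).injective ℓ
  let f : k →+* K := algebraMap k K
  have hfinj : Function.Injective f := (algebraMap k K).injective
  have hcomp : ∀ z : ZMod ℓ, f (algebraMap (ZMod ℓ) k z) = ZMod.castHom (dvd_refl ℓ) K z :=
    fun z => RingHom.congr_fun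
      (Subsingleton.elim (f.comp (algebraMap (ZMod ℓ) k)) (ZMod.castHom (dvd_refl ℓ) K)) z
  let M : G →* Matrix (Fin 2) (Fin 2) K :=
    { toFun := fun g => (LinearMap.toMatrix b b (ρ g)).map f
      map_one' := by
        rw [map_one, LinearMap.toMatrix_one]
        exact Matrix.map_one f f.map_zero f.map_one
      map_mul' := fun g g' => by
        rw [map_mul, LinearMap.toMatrix_mul, Matrix.map_mul] }
  have hMdef : ∀ g, M g = (LinearMap.toMatrix b b (ρ g)).map f := fun g => rfl
  -- traces and determinants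
  have htd : ∀ g : G, ∃ t d : ZMod ℓ,
      (LinearMap.toMatrix b b (ρ g)).trace = algebraMap (ZMod ℓ) k t ∧
      (LinearMap.toMatrix b b (ρ g)).det = algebraMap (ZMod ℓ) k d := by
    intro g
    obtain ⟨t, d, htd⟩ := h g
    refine ⟨t, d, ?_⟩
    rw [← LinearMap.charpoly_toMatrix (ρ g) b, Matrix.charpoly_fin_two] at htd
    exact dskd_quad_inj htd
  have hPFt : ∀ g, dskdPF K (M g).trace := by
    intro g
    obtain ⟨t, d, ht, hd⟩ := htd g
    rw [hMdef, dskd_trace_map, ht, hcomp]
    exact dskdPF_castHom ℓ t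
  have hPFd : ∀ g, dskdPF K (M g).det := by
    intro g
    obtain ⟨t, d, ht, hd⟩ := htd g
    rw [hMdef, dskd_det_map, hd, hcomp]
    exact dskdPF_castHom ℓ d
  have key : ∃ ρ₀ : G →* GL (Fin 2) (ZMod ℓ), dskdSemisimple ρ₀.range ∧ ∀ g : G,
      (M g).trace = ZMod.castHom (dvd_refl ℓ) K ((ρ₀ g : Matrix (Fin 2) (Fin 2) (ZMod ℓ)).trace) ∧
      (M g).det = ZMod.castHom (dvd_refl ℓ) K ((ρ₀ g : Matrix (Fin 2) (Fin 2) (ZMod ℓ)).det) := by
    by_cases hce : dskdCommonEig M
    · exact dskd_descend_red ℓ M hPFt hPFd hce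
    · exact dskd_descend_irred ℓ M hPFt hce
  obtain ⟨ρ₀, hss, hρ₀⟩ := key
  refine ⟨ρ₀, hss, fun g => ?_⟩
  apply Polynomial.map_injective f hfinj
  rw [Polynomial.map_map, ← LinearMap.charpoly_toMatrix (ρ g) b, ← Matrix.charpoly_map, ← hMdef]
  have hc : f.comp (algebraMap (ZMod ℓ) k) = ZMod.castHom (dvd_refl ℓ) K := Subsingleton.elim _ _
  rw [hc, ← Matrix.charpoly_map]
  apply dskd_charpoly_eq
  · rw [(hρ₀ g).1, dskd_trace_map]
  · rw [(hρ₀ g).2, dskd_det_map]

end Fermat.Agent.DS
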