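/-
Program DS (S48), package K, row K1b (`dsk_descend`): elementary 2×2 toolkit.
Prime-field elements of a field of characteristic `ℓ` are described as integer casts
(`dskdPF`), which are exactly the fixed points of `x ↦ x ^ ℓ`.
-/
import Mathlib

set_option autoImplicit false
set_option linter.unusedSectionVars false

open Polynomial Matrix

namespace Fermat.Agent.DS

/-- Local copy of `DsSemisimple` (DS/K/Spec): every stable subspace has a stable complement. -/
def dskdSemisimple {F : Type} [CommRing F] (G : Subgroup (GL (Fin 2) F)) : Prop :=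
  ∀ W : Submodule F (Fin 2 → F), (∀ g ∈ G, ∀ w ∈ W, (g : Matrix (Fin 2) (Fin 2) F).mulVec w ∈ W) →
    ∃ W' : Submodule F (Fin 2 → F),
      (∀ g ∈ G, ∀ w ∈ W', (g : Matrix (Fin 2) (Fin 2) F).mulVec w ∈ W') ∧ IsCompl W W'

/-! ### prime-field elements -/

/-- `x` lies in the prime ring: it is an integer cast. -/
def dskdPF (K : Type*) [Ring K] (x : K) : Prop := ∃ n : ℤ, (n : K) = x

section PF

variable {K : Type*} [Ring K]

theorem dskdPF_intCast (n : ℤ) : dskdPF K (n : K) := ⟨n, rfl⟩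

theorem dskdPF_zero : dskdPF K (0 : K) := ⟨0, by simp⟩

theorem dskdPF_one : dskdPF K (1 : K) := ⟨1, by simp⟩

theorem dskdPF_add {x y : K} (hx : dskdPF K x) (hy : dskdPF K y) : dskdPF K (x + y) := by
  obtain ⟨m, rfl⟩ := hx
  obtain ⟨n, rfl⟩ := hy
  exact ⟨m + n, by push_cast; rfl⟩

theorem dskdPF_neg {x : K} (hx : dskdPF K x) : dskdPF K (-x) := by
  obtain ⟨m, rfl⟩ := hx
  exact ⟨-m, by push_cast; rfl⟩

theorem dskdPF_sub {x y : K} (hx : dskdPF K x) (hy : dskdPF K y) : dskdPF K (x - y) := by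
  obtain ⟨m, rfl⟩ := hx
  obtain ⟨n, rfl⟩ := hy
  exact ⟨m - n, by push_cast; rfl⟩

theorem dskdPF_mul {x y : K} (hx : dskdPF K x) (hy : dskdPF K y) : dskdPF K (x * y) := by
  obtain ⟨m, rfl⟩ := hx
  obtain ⟨n, rfl⟩ := hy
  exact ⟨m * n, by push_cast; rfl⟩

end PF

section Frob

variable {K : Type*} [Field K] (ℓ : ℕ) [Fact ℓ.Prime] [CharP K ℓ]

theorem dskdPF_pow_eq {x : K} (hx : dskdPF K x) : x ^ ℓ = x := by
  rw [← Subfield.mem_bot_iff_pow_eq_self K ℓ, mem_bot_iff_intCast ℓ K]
  exact hx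

theorem dskdPF_of_pow_eq {x : K} (hx : x ^ ℓ = x) : dskdPF K x := by
  rw [← Subfield.mem_bot_iff_pow_eq_self K ℓ, mem_bot_iff_intCast ℓ K] at hx
  exact hx

theorem dskdPF_iff_pow_eq {x : K} : dskdPF K x ↔ x ^ ℓ = x :=
  ⟨dskdPF_pow_eq ℓ, dskdPF_of_pow_eq ℓ⟩

include ℓ in
/-- The prime-field elements form a finite set. -/
theorem dskdPF_finite : {x : K | dskdPF K x}.Finite := by
  have h : {x : K | dskdPF K x} ⊆ Set.range (ZMod.castHom (dvd_refl ℓ) K) := by
    rintro x ⟨n, rfl⟩
    exact ⟨(n : ZMod ℓ), by simp⟩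
  exact (Set.finite_range _).subset h

theorem dskdPF_castHom (a : ZMod ℓ) : dskdPF K (ZMod.castHom (dvd_refl ℓ) K a) := by
  obtain ⟨n, rfl⟩ := ZMod.intCast_surjective a
  exact ⟨n, by simp⟩

theorem dskdPF_exists_zmod {x : K} (hx : dskdPF K x) :
    ∃ a : ZMod ℓ, ZMod.castHom (dvd_refl ℓ) K a = x := by
  obtain ⟨n, rfl⟩ := hx
  exact ⟨(n : ZMod ℓ), by simp⟩

end Frob

/-! ### vectors of length two -/

section Vec

variable {K : Type*} [Field K]

/-- The determinant of two vectors of length two. -/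
def dskdDet2 (v w : Fin 2 → K) : K := v 0 * w 1 - v 1 * w 0

theorem dskd_exists_smul_of_det2_eq_zero {v w : Fin 2 → K} (hv : v ≠ 0)
    (h : dskdDet2 v w = 0) : ∃ c : K, w = c • v := by
  unfold dskdDet2 at h
  by_cases h0 : v 0 = 0
  · have h1 : v 1 ≠ 0 := by
      intro h1
      apply hv
      ext i
      fin_cases i <;> simp [h0, h1]
    refine ⟨w 1 / v 1, ?_⟩
    ext i
    fin_cases i
    · simp only [Fin.zero_eta, Fin.isValue, Pi.smul_apply, smul_eq_mul, h0, mul_zero]
      rw [h0, zero_mul, zero_sub, neg_eq_zero] at h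
      rcases mul_eq_zero.mp h with h | h
      · exact absurd h h1
      · exact h
    · simp only [Fin.mk_one, Fin.isValue, Pi.smul_apply, smul_eq_mul]
      field_simp
  · refine ⟨w 0 / v 0, ?_⟩
    ext i
    fin_cases i
    · simp only [Fin.zero_eta, Fin.isValue, Pi.smul_apply, smul_eq_mul]
      field_simp
    · simp only [Fin.mk_one, Fin.isValue, Pi.smul_apply, smul_eq_mul]
      field_simp
      linear_combination h

theorem dskd_det2_smul_right (v : Fin 2 → K) (c : K) : dskdDet2 v (c • v) = 0 := by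
  simp [dskdDet2]; ring

/-- Cramer: two vectors with nonzero determinant generate everything. -/
theorem dskd_eq_combination {v w : Fin 2 → K} (h : dskdDet2 v w ≠ 0) (x : Fin 2 → K) :
    x = (dskdDet2 x w / dskdDet2 v w) • v + (dskdDet2 v x / dskdDet2 v w) • w := by
  ext i
  fin_cases i
  · simp only [Fin.zero_eta, Fin.isValue, Pi.add_apply, Pi.smul_apply, smul_eq_mul]
    rw [div_mul_eq_mul_div, div_mul_eq_mul_div, ← add_div, eq_div_iff h]
    unfold dskdDet2
    ring
  · simp only [Fin.mk_one, Fin.isValue, Pi.add_apply, Pi.smul_apply, smul_eq_mul]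
    rw [div_mul_eq_mul_div, div_mul_eq_mul_div, ← add_div, eq_div_iff h]
    unfold dskdDet2
    ring

theorem dskd_eq_top_of_det2_ne_zero {v w : Fin 2 → K} (h : dskdDet2 v w ≠ 0)
    (W : Submodule K (Fin 2 → K)) (hv : v ∈ W) (hw : w ∈ W) : W = ⊤ := by
  rw [Submodule.eq_top_iff']
  intro x
  rw [dskd_eq_combination h x]
  exact W.add_mem (W.smul_mem _ hv) (W.smul_mem _ hw)

theorem dskd_coeff_zero_of_det2_ne_zero {v w : Fin 2 → K} (h : dskdDet2 v w ≠ 0) {a b : K}
    (hab : a • v + b • w = 0) : a = 0 ∧ b = 0 := by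
  unfold dskdDet2 at h
  have h0 := congrFun hab 0
  have h1 := congrFun hab 1
  simp only [Fin.isValue, Pi.add_apply, Pi.smul_apply, smul_eq_mul, Pi.zero_apply] at h0 h1
  constructor
  · have : a * (v 0 * w 1 - v 1 * w 0) = 0 := by linear_combination w 1 * h0 - w 0 * h1
    exact (mul_eq_zero.mp this).resolve_right h
  · have : b * (v 0 * w 1 - v 1 * w 0) = 0 := by linear_combination v 0 * h1 - v 1 * h0
    exact (mul_eq_zero.mp this).resolve_right h

end Vec

/-! ### 2×2 matrices -/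

section Mat

variable {K : Type*} [Field K]

/-- A family of 2×2 matrices has a common eigenvector. -/
def dskdCommonEig {G : Type*} (M : G → Matrix (Fin 2) (Fin 2) K) : Prop :=
  ∃ v : Fin 2 → K, v ≠ 0 ∧ ∀ g, ∃ c : K, (M g) *ᵥ v = c • v

/-- A stable subspace of a family without common eigenvector is trivial. -/
theorem dskd_stable_eq_bot_or_top {G : Type*} {M : G → Matrix (Fin 2) (Fin 2) K}
    (hne : ¬ dskdCommonEig M) (W : Submodule K (Fin 2 → K))
    (hW : ∀ g, ∀ w ∈ W, (M g) *ᵥ w ∈ W) : W = ⊥ ∨ W = ⊤ := by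
  by_contra hcon
  push Not at hcon
  obtain ⟨hbot, htop⟩ := hcon
  obtain ⟨v, hvW, hv0⟩ := (Submodule.ne_bot_iff W).mp hbot
  apply hne
  refine ⟨v, hv0, fun g => ?_⟩
  by_contra hc
  apply htop
  have hdet : dskdDet2 v ((M g) *ᵥ v) ≠ 0 := by
    intro h0
    exact hc (dskd_exists_smul_of_det2_eq_zero hv0 h0)
  exact dskd_eq_top_of_det2_ne_zero hdet W hvW (hW g v hvW)

/-- A representation without common eigenvector is semisimple. -/
theorem dskd_semisimple_of_not_commonEig {F : Type} [Field F] {G : Type*} [Group G]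
    (ρ₀ : G →* GL (Fin 2) F)
    (hne : ¬ dskdCommonEig (fun g => ((ρ₀ g : GL (Fin 2) F) : Matrix (Fin 2) (Fin 2) F))) :
    dskdSemisimple ρ₀.range := by
  intro W hW
  have hW' : ∀ g, ∀ w ∈ W, ((ρ₀ g : GL (Fin 2) F) : Matrix (Fin 2) (Fin 2) F) *ᵥ w ∈ W :=
    fun g w hw => hW (ρ₀ g) ⟨g, rfl⟩ w hw
  rcases dskd_stable_eq_bot_or_top hne W hW' with h | h
  · subst h
    exact ⟨⊤, fun _ _ _ _ => Submodule.mem_top, isCompl_bot_top⟩
  · subst h
    refine ⟨⊥, fun g _ w hw => ?_, isCompl_top_bot⟩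
    rw [(Submodule.mem_bot F).mp hw, Matrix.mulVec_zero]
    exact Submodule.zero_mem _

/-- Nondegeneracy of the trace form on 2×2 matrices. -/
theorem dskd_eq_zero_of_trace_mul {m : Matrix (Fin 2) (Fin 2) K}
    (h : ∀ m' : Matrix (Fin 2) (Fin 2) K, (m * m').trace = 0) : m = 0 := by
  ext i j
  have := h (Matrix.single j i 1)
  fin_cases i <;> fin_cases j <;>
    simpa [Matrix.trace, Matrix.mul_apply, Matrix.single_apply, Fin.sum_univ_two] using this

/-- Rank one decomposition of a singular nonzero 2×2 matrix. -/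
theorem dskd_rank_one {A : Matrix (Fin 2) (Fin 2) K} (hA : A ≠ 0) (hdet : A.det = 0) :
    ∃ a b : Fin 2 → K, a ≠ 0 ∧ b ≠ 0 ∧ A = vecMulVec a b := by
  rw [Matrix.det_fin_two] at hdet
  have hex : ∃ i j, A i j ≠ 0 := by
    by_contra hcon
    push Not at hcon
    exact hA (by ext i j; exact hcon i j)
  obtain ⟨i₀, j₀, hij⟩ := hex
  refine ⟨fun i => A i j₀, fun j => A i₀ j / A i₀ j₀, ?_, ?_, ?_⟩
  · intro h
    exact hij (congrFun h i₀)
  · intro h
    have := congrFun h j₀
    simp only [Pi.zero_apply] at this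
    rw [div_self hij] at this
    exact one_ne_zero this
  · ext i j
    simp only [vecMulVec_apply]
    field_simp
    fin_cases i₀ <;> fin_cases j₀ <;> fin_cases i <;> fin_cases j <;>
      simp only [Fin.zero_eta, Fin.mk_one, Fin.isValue] at hij ⊢ <;>
      first | ring1 | linear_combination hdet | linear_combination -hdet

theorem dskd_vecMulVec_eq_zero {a b : Fin 2 → K} (hb : b ≠ 0) (h : vecMulVec a b = 0) : a = 0 := by
  have hex : ∃ j, b j ≠ 0 := by
    by_contra hcon
    push Not at hcon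
    exact hb (funext hcon)
  obtain ⟨j, hj⟩ := hex
  ext i
  have := congrFun (congrFun h i) j
  simp only [vecMulVec_apply, Matrix.zero_apply] at this
  exact (mul_eq_zero.mp this).resolve_right hj

/-- trace and determinant determine the characteristic polynomial of a 2×2 matrix. -/
theorem dskd_charpoly_eq {R : Type*} [CommRing R] [Nontrivial R] {A B : Matrix (Fin 2) (Fin 2) R}
    (ht : A.trace = B.trace) (hd : A.det = B.det) : A.charpoly = B.charpoly := by
  rw [Matrix.charpoly_fin_two, Matrix.charpoly_fin_two, ht, hd]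

end Mat

end Fermat.Agent.DS
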