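/-
Program DS (S48), package K, row K1b (`dsk_descend`): Burnside's theorem for 2×2 matrices over an
algebraically closed field, by hand: a multiplicative family without common eigenvector spans the
whole matrix algebra; consequences (nondegeneracy of the trace form against the family,
noncommutativity).
-/
import Mathlib
import Fermat.Agent.DS.K.Descend.Basic

set_option autoImplicit false
set_option linter.unusedSectionVars false

open Polynomial Matrix

namespace Fermat.Agent.DS

section Burnside

variable {K : Type*} [Field K] {G : Type*} [Group G]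

/-- The span of a multiplicative family is stable under left multiplication. -/
theorem dskd_span_mul_left (M : G →* Matrix (Fin 2) (Fin 2) K) (g : G)
    {m : Matrix (Fin 2) (Fin 2) K} (hm : m ∈ Submodule.span K (Set.range M)) :
    M g * m ∈ Submodule.span K (Set.range M) := by
  induction hm using Submodule.span_induction with
  | mem x hx =>
    obtain ⟨h, rfl⟩ := hx
    exact Submodule.subset_span ⟨g * h, by rw [map_mul]⟩
  | zero => rw [mul_zero]; exact Submodule.zero_mem _
  | add x y _ _ hx hy => rw [mul_add]; exact Submodule.add_mem _ hx hy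
  | smul c x _ hx => rw [Matrix.mul_smul]; exact Submodule.smul_mem _ c hx

/-- The span of a multiplicative family is stable under right multiplication. -/
theorem dskd_span_mul_right (M : G →* Matrix (Fin 2) (Fin 2) K) (g : G)
    {m : Matrix (Fin 2) (Fin 2) K} (hm : m ∈ Submodule.span K (Set.range M)) :
    m * M g ∈ Submodule.span K (Set.range M) := by
  induction hm using Submodule.span_induction with
  | mem x hx =>
    obtain ⟨h, rfl⟩ := hx
    exact Submodule.subset_span ⟨h * g, by rw [map_mul]⟩
  | zero => rw [zero_mul]; exact Submodule.zero_mem _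
  | add x y _ _ hx hy => rw [add_mul]; exact Submodule.add_mem _ hx hy
  | smul c x _ hx => rw [Matrix.smul_mul]; exact Submodule.smul_mem _ c hx

/-- No common eigenvector for the family implies none for the transposed family. -/
theorem dskd_not_commonEig_transpose {M : G → Matrix (Fin 2) (Fin 2) K}
    (hne : ¬ dskdCommonEig M) : ¬ dskdCommonEig (fun g => (M g)ᵀ) := by
  rintro ⟨u, hu0, hu⟩
  apply hne
  -- `v` spans the kernel of the functional `u`
  set v : Fin 2 → K := ![u 1, -u 0] with hv
  have hv0 : v ≠ 0 := by
    intro h
    apply hu0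
    have h0 := congrFun h 0
    have h1 := congrFun h 1
    simp only [hv, Fin.isValue, Matrix.cons_val_zero, Matrix.cons_val_one, Pi.zero_apply,
      neg_eq_zero] at h0 h1
    ext i
    fin_cases i
    · exact h1
    · exact h0
  refine ⟨v, hv0, fun g => ?_⟩
  obtain ⟨c, hc⟩ := hu g
  have h0 := congrFun hc 0
  have h1 := congrFun hc 1
  simp only [Matrix.mulVec, dotProduct, Fin.sum_univ_two, Matrix.transpose_apply, Fin.isValue,
    Pi.smul_apply, smul_eq_mul] at h0 h1
  have hdet : dskdDet2 v (M g *ᵥ v) = 0 := by
    simp only [dskdDet2, hv, Matrix.mulVec, dotProduct, Fin.sum_univ_two, Fin.isValue,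
      Matrix.cons_val_zero, Matrix.cons_val_one]
    linear_combination u 1 * h0 - u 0 * h1
  obtain ⟨c', hc'⟩ := dskd_exists_smul_of_det2_eq_zero hv0 hdet
  exact ⟨c', hc'⟩

variable [IsAlgClosed K]

/-- Every 2×2 matrix over an algebraically closed field has an eigenvector. -/
theorem dskd_exists_eigenvector (A : Matrix (Fin 2) (Fin 2) K) :
    ∃ (c : K) (v : Fin 2 → K), v ≠ 0 ∧ A *ᵥ v = c • v := by
  have hdeg : A.charpoly.degree ≠ 0 := by
    rw [Matrix.charpoly_degree_eq_dim]
    simp
  obtain ⟨c, hc⟩ := IsAlgClosed.exists_root A.charpoly hdeg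
  have hdet : (A - c • (1 : Matrix (Fin 2) (Fin 2) K)).det = 0 := by
    rw [Matrix.charpoly_fin_two] at hc
    simp only [IsRoot.def, eval_add, eval_sub, eval_pow, eval_X, eval_mul, eval_C] at hc
    rw [Matrix.det_fin_two]
    simp only [Matrix.trace_fin_two, Matrix.det_fin_two] at hc
    simp only [Fin.isValue, Matrix.sub_apply, Matrix.smul_apply, Matrix.one_apply_eq, smul_eq_mul,
      mul_one, ne_eq, zero_ne_one, not_false_eq_true, Matrix.one_apply_ne, mul_zero, sub_zero,
      one_ne_zero]
    linear_combination hc
  obtain ⟨v, hv0, hv⟩ := Matrix.exists_mulVec_eq_zero_iff.mpr hdet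
  refine ⟨c, v, hv0, ?_⟩
  rw [Matrix.sub_mulVec, Matrix.smul_mulVec, Matrix.one_mulVec, sub_eq_zero] at hv
  exact hv

/-- **Burnside for 2×2**: a multiplicative family without common eigenvector spans `M₂(K)`. -/
theorem dskd_span_eq_top (M : G →* Matrix (Fin 2) (Fin 2) K) (hne : ¬ dskdCommonEig M) :
    Submodule.span K (Set.range M) = ⊤ := by
  classical
  set S := Submodule.span K (Set.range M) with hS
  have hone : (1 : Matrix (Fin 2) (Fin 2) K) ∈ S := Submodule.subset_span ⟨1, map_one M⟩
  -- Step 1: a nonzero singular element of `S`.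
  have hstep1 : ∃ s ∈ S, s ≠ 0 ∧ s.det = 0 := by
    by_contra hcon
    push Not at hcon
    apply hne
    refine ⟨![1, 0], ?_, fun g => ?_⟩
    · intro h
      have := congrFun h 0
      simp at this
    · obtain ⟨c, v, hv0, hv⟩ := dskd_exists_eigenvector (M g)
      have hs : M g - c • (1 : Matrix (Fin 2) (Fin 2) K) ∈ S :=
        Submodule.sub_mem _ (Submodule.subset_span ⟨g, rfl⟩) (Submodule.smul_mem _ c hone)
      have hdet : (M g - c • (1 : Matrix (Fin 2) (Fin 2) K)).det = 0 := by
        apply Matrix.exists_mulVec_eq_zero_iff.mp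
        refine ⟨v, hv0, ?_⟩
        rw [Matrix.sub_mulVec, Matrix.smul_mulVec, Matrix.one_mulVec, sub_eq_zero]
        exact hv
      have hz : M g - c • (1 : Matrix (Fin 2) (Fin 2) K) = 0 := by
        by_contra hz
        exact hcon _ hs hz hdet
      refine ⟨c, ?_⟩
      rw [sub_eq_zero] at hz
      rw [hz, Matrix.smul_mulVec, Matrix.one_mulVec]
  obtain ⟨s, hsS, hs0, hsdet⟩ := hstep1
  obtain ⟨a, b, ha0, hb0, rfl⟩ := dskd_rank_one hs0 hsdet
  -- Step 2: all `vecMulVec u b` lie in `S`.
  have hcol : ∀ u : Fin 2 → K, vecMulVec u b ∈ S := by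
    let W : Submodule K (Fin 2 → K) :=
      { carrier := {u | vecMulVec u b ∈ S}
        add_mem' := fun {x y} hx hy => by
          simp only [Set.mem_ofPred_eq] at hx hy ⊢
          rw [Matrix.add_vecMulVec]
          exact Submodule.add_mem _ hx hy
        zero_mem' := by
          simp only [Set.mem_ofPred_eq]
          rw [Matrix.zero_vecMulVec]
          exact Submodule.zero_mem _
        smul_mem' := fun c x hx => by
          simp only [Set.mem_ofPred_eq] at hx ⊢
          rw [Matrix.smul_vecMulVec]
          exact Submodule.smul_mem _ c hx }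
    have hWstab : ∀ g, ∀ w ∈ W, (M g) *ᵥ w ∈ W := by
      intro g w hw
      change vecMulVec ((M g) *ᵥ w) b ∈ S
      rw [← Matrix.mul_vecMulVec]
      exact dskd_span_mul_left M g hw
    have haW : a ∈ W := hsS
    rcases dskd_stable_eq_bot_or_top hne W hWstab with h | h
    · exfalso
      rw [h] at haW
      exact ha0 ((Submodule.mem_bot K).mp haW)
    · intro u
      have : u ∈ W := by rw [h]; exact Submodule.mem_top
      exact this
  -- Step 3: all `vecMulVec u w` lie in `S`.
  have hneT := dskd_not_commonEig_transpose hne
  have hall : ∀ u w : Fin 2 → K, vecMulVec u w ∈ S := by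
    intro u
    let W : Submodule K (Fin 2 → K) :=
      { carrier := {w | vecMulVec u w ∈ S}
        add_mem' := fun {x y} hx hy => by
          simp only [Set.mem_ofPred_eq] at hx hy ⊢
          rw [Matrix.vecMulVec_add]
          exact Submodule.add_mem _ hx hy
        zero_mem' := by
          simp only [Set.mem_ofPred_eq]
          rw [Matrix.vecMulVec_zero]
          exact Submodule.zero_mem _
        smul_mem' := fun c x hx => by
          simp only [Set.mem_ofPred_eq] at hx ⊢
          rw [Matrix.vecMulVec_smul]
          exact Submodule.smul_mem _ c hx }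
    have hWstab : ∀ g, ∀ w ∈ W, (M g)ᵀ *ᵥ w ∈ W := by
      intro g w hw
      change vecMulVec u ((M g)ᵀ *ᵥ w) ∈ S
      rw [Matrix.mulVec_transpose, ← Matrix.vecMulVec_mul]
      exact dskd_span_mul_right M g hw
    have hbW : b ∈ W := hcol u
    rcases dskd_stable_eq_bot_or_top hneT W hWstab with h | h
    · exfalso
      rw [h] at hbW
      exact hb0 ((Submodule.mem_bot K).mp hbW)
    · intro w
      have : w ∈ W := by rw [h]; exact Submodule.mem_top
      exact this
  -- Step 4: every matrix is a sum of four outer products.
  rw [Submodule.eq_top_iff']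
  intro m
  have hm : m = vecMulVec (fun i => m i 0) ![1, 0] + vecMulVec (fun i => m i 1) ![0, 1] := by
    ext i j
    fin_cases j <;> simp
  rw [hm]
  exact Submodule.add_mem _ (hall _ _) (hall _ _)

/-- Nondegeneracy of the trace form against a spanning family. -/
theorem dskd_eq_zero_of_trace_mul_family (M : G →* Matrix (Fin 2) (Fin 2) K)
    (hne : ¬ dskdCommonEig M) {m : Matrix (Fin 2) (Fin 2) K}
    (h : ∀ g, (m * M g).trace = 0) : m = 0 := by
  apply dskd_eq_zero_of_trace_mul
  intro m'
  have hm' : m' ∈ Submodule.span K (Set.range M) := by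
    rw [dskd_span_eq_top M hne]; exact Submodule.mem_top
  induction hm' using Submodule.span_induction with
  | mem x hx =>
    obtain ⟨g, rfl⟩ := hx
    exact h g
  | zero => simp
  | add x y _ _ hx hy => rw [mul_add, Matrix.trace_add, hx, hy, add_zero]
  | smul c x _ hx => rw [Matrix.mul_smul, Matrix.trace_smul, hx, smul_zero]

/-- A spanning multiplicative family is not commutative. -/
theorem dskd_exists_not_commute (M : G →* Matrix (Fin 2) (Fin 2) K)
    (hne : ¬ dskdCommonEig M) : ∃ g h, M g * M h ≠ M h * M g := by
  by_contra hcon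
  push Not at hcon
  have htop := dskd_span_eq_top M hne
  -- everything commutes with every `M h`
  have h1 : ∀ (m : Matrix (Fin 2) (Fin 2) K) (h : G), m * M h = M h * m := by
    intro m h
    have hm : m ∈ Submodule.span K (Set.range M) := by rw [htop]; exact Submodule.mem_top
    induction hm using Submodule.span_induction with
    | mem x hx =>
      obtain ⟨g, rfl⟩ := hx
      exact hcon g h
    | zero => simp
    | add x y _ _ hx hy => rw [add_mul, mul_add, hx, hy]
    | smul c x _ hx => rw [Matrix.smul_mul, Matrix.mul_smul, hx]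
  -- hence everything commutes with everything
  have h2 : ∀ m m' : Matrix (Fin 2) (Fin 2) K, m * m' = m' * m := by
    intro m m'
    have hm : m' ∈ Submodule.span K (Set.range M) := by rw [htop]; exact Submodule.mem_top
    induction hm using Submodule.span_induction with
    | mem x hx =>
      obtain ⟨g, rfl⟩ := hx
      exact h1 m g
    | zero => simp
    | add x y _ _ hx hy => rw [add_mul, mul_add, hx, hy]
    | smul c x _ hx => rw [Matrix.smul_mul, Matrix.mul_smul, hx]
  have h3 := h2 (Matrix.single 0 1 1) (Matrix.single 1 0 1)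
  have h4 := congrFun (congrFun h3 0) 0
  simp [Matrix.mul_apply, Matrix.single_apply] at h4

end Burnside

end Fermat.Agent.DS
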